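import Fermat.Agent.Ribet.H884.SlopeClosed
import Fermat.Agent.Ribet.H997.RedBasic
import Fermat.Agent.Ribet.H939.ResField
import Fermat.Agent.S37.H340.KronFrob
import Fermat.Agent.S18.H504.ConstF

/-!
# Row 38, WALL-p, leaf **GEN** of `Ribet/H884/SlopeSpec.lean`  (helper669)

Membership in `finSet` / `splitSet` can be tested on ANY Kummer generator.

* `exists_eq_const_mul_pow` : two Kummer generators `f`, `f₀` of the same class satisfy
  `f = c · f₀ · g ^ p` with `c ∈ ℚ̄ˣ`, `g ∈ FF Nˣ` (the difference of the two divisors is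
  principal, and a function without zeros and poles is constant: `S18.H504`);
* calculus of reductions: `isRedInf_const_mul`, `isRedInf_pow` (same for `IsRedZero`);
* `pDivSeries_pow` : the `p`-th power of a nonzero element of `F_k` is `PDivSeries`;
* `splitSeries_pow_char` : in characteristic `p` a `p`-th power is `SplitSeries`;
* `finGen_const_mul_pow`, `splitGen_const_mul_pow` : `FinGen` / `SplitGen` are insensitive to
  the factor `c · g ^ p` (given `RedFieldStatement`);
* **`genIndep_of : RedFieldStatement → GenIndepStatement`** (uses `H997.redExists`,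
  `H939.resField`, both on main).
-/

set_option autoImplicit false
set_option synthInstance.maxHeartbeats 400000
set_option maxHeartbeats 1000000
set_option linter.unusedSectionVars false

noncomputable section

namespace Fermat.Agent.Ribet.H669

open AlgebraicCurve ModularCurve HahnSeries
open Fermat.Agent.S24 Fermat.Agent.A2.H708 Fermat.Agent.A2.H528
open Fermat.Agent.Ribet.Spec Fermat.Agent.Ribet.H944.Wall Fermat.Agent.Ribet.H884

/-! ## Two Kummer generators of the same class -/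

section Kummer

variable {N : ℕ} [NeZero N] {p : ℕ}

/-- Two Kummer generators of the same class differ by a constant and a `p`-th power. -/
theorem exists_eq_const_mul_pow {f f₀ : FF N} {x : JZero N} (h : IsKummerGen N p f x)
    (h₀ : IsKummerGen N p f₀ x) :
    ∃ (c : Kbar) (g : FF N), c ≠ 0 ∧ g ≠ 0 ∧ f = algebraMap Kbar (FF N) c * (f₀ * g ^ p) := by
  obtain ⟨hf, D, hD, hord⟩ := h
  obtain ⟨hf₀, D₀, hD₀, hord₀⟩ := h₀
  have hmk : (QuotientAddGroup.mk D₀ : Pic0 Kbar (FF N)) = QuotientAddGroup.mk D :=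
    hD₀.trans hD.symm
  rw [QuotientAddGroup.eq] at hmk
  obtain ⟨g, hg, hgD⟩ := AddSubgroup.mem_addSubgroupOf.mp hmk
  have hden : f₀ * g ^ p ≠ 0 := mul_ne_zero hf₀ (pow_ne_zero _ hg)
  have hu0 : f * (f₀ * g ^ p)⁻¹ ≠ 0 := mul_ne_zero hf (inv_ne_zero hden)
  have hordu : ∀ v : Place Kbar (FF N), v.ord (f * (f₀ * g ^ p)⁻¹) = 0 := by
    intro v
    have h1 := hgD v
    simp only [AddSubgroup.coe_add, AddSubgroup.coe_neg, Finsupp.add_apply,
      Finsupp.neg_apply] at h1
    rw [Place.ord_mul v hf (inv_ne_zero hden), Place.ord_inv,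
      Place.ord_mul v hf₀ (pow_ne_zero _ hg), ← zpow_natCast, Place.ord_zpow, hord, hord₀, ← h1]
    ring
  obtain ⟨c, hc⟩ :=
    Fermat.Agent.S18.H504.constOfOrdZero_modularFunctionFieldBar N _ hu0 hordu
  refine ⟨c, g, ?_, hg, ?_⟩
  · rintro rfl
    rw [map_zero] at hc
    exact hu0 hc
  · rw [← hc, mul_assoc, inv_mul_cancel₀ hden, mul_one]

end Kummer

/-! ## Reductions: constants and powers -/

section Red

variable {N : ℕ} [NeZero N] {A : ValuationSubring Kbar}

theorem isRedInf_const_mul {f : FF N} {r : LaurentSeries (kA A)} (h : IsRedInf N A f r)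
    {c : Kbar} (hc : c ≠ 0) : IsRedInf N A (algebraMap Kbar (FF N) c * f) r := by
  obtain ⟨c', U₁, U₂, hc', h₁, h₂, he, hr⟩ := h
  refine ⟨c * c', U₁, U₂, mul_ne_zero hc hc', h₁, h₂, ?_, hr⟩
  have hcoe : ((algebraMap Kbar (FF N) c * f : FF N) : LaurentSeries Kbar) =
      cst c * (f : LaurentSeries Kbar) := rfl
  rw [hcoe, cst_mul, mul_assoc, he, mul_assoc]

theorem isRedZero_const_mul {f : FF N} {r : LaurentSeries (kA A)} (h : IsRedZero N A f r)
    {c : Kbar} (hc : c ≠ 0) : IsRedZero N A (algebraMap Kbar (FF N) c * f) r := by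
  unfold IsRedZero at h ⊢
  rw [map_mul, AlgEquiv.commutes]
  exact isRedInf_const_mul h hc

theorem isRedInf_pow {f : FF N} {r : LaurentSeries (kA A)} (h : IsRedInf N A f r) (n : ℕ) :
    IsRedInf N A (f ^ n) (r ^ n) := by
  induction n with
  | zero =>
    rw [pow_zero, pow_zero]
    exact isRedInf_one
  | succ n ih =>
    rw [pow_succ, pow_succ]
    exact ih.mul h

theorem isRedZero_pow {f : FF N} {r : LaurentSeries (kA A)} (h : IsRedZero N A f r) (n : ℕ) :
    IsRedZero N A (f ^ n) (r ^ n) := by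
  unfold IsRedZero at h ⊢
  rw [map_pow]
  exact isRedInf_pow h n

end Red

/-! ## `p`-th powers -/

section Pow

variable {p M' : ℕ} {k : Type} [Field k]

/-- The `p`-th power of a nonzero element of `F_k` has all orders divisible by `p`. -/
theorem pDivSeries_pow {r : LaurentSeries k} (hr : r ≠ 0)
    (h : ∃ a : modularFunctionFieldFullC k M', (a : LaurentSeries k) = r) :
    PDivSeries p M' (r ^ p) := by
  obtain ⟨a, rfl⟩ := h
  have ha : a ≠ 0 := by
    rintro rfl
    exact hr rfl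
  refine ⟨a ^ p, rfl, pow_ne_zero _ ha, fun Q => ?_⟩
  rw [← zpow_natCast, Place.ord_zpow]
  exact dvd_mul_right _ _

/-- In characteristic `p` a `p`-th power lies in `k((t^p))`. -/
theorem splitSeries_pow_char [NeZero p] (hp : p.Prime) [CharP k p] (r : LaurentSeries k) :
    SplitSeries p (r ^ p) := by
  have : Fact p.Prime := ⟨hp⟩
  rw [Fermat.Agent.S37.H340.pow_char_eq_qExpand p r]
  exact (splitSeries_iff _).mpr ⟨_, rfl⟩

end Pow

/-! ## GEN -/

section Gen

variable {p M' : ℕ} [NeZero M'] [NeZero p] [NeZero (p * M')] {A : ValuationSubring Kbar}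

/-- The factor `c · g ^ p` has `PDivSeries` + `SplitSeries` reductions on both components. -/
theorem exists_red_pow (hRF : RedFieldStatement) (hp : p.Prime) (hpM : ¬ p ∣ M')
    (hA : A.LiesOverPrime p) {g : FF (p * M')} (hg : g ≠ 0) :
    ∃ s₁ s₂ : LaurentSeries (kA A), IsRedInf (p * M') A (g ^ p) (s₁ ^ p) ∧
      IsRedZero (p * M') A (g ^ p) (s₂ ^ p) ∧ PDivSeries p M' (s₁ ^ p) ∧
      PDivSeries p M' (s₂ ^ p) ∧ SplitSeries p (s₁ ^ p) ∧ SplitSeries p (s₂ ^ p) := by
  obtain ⟨-, hchar⟩ := Fermat.Agent.Ribet.H939.resField p hp A hA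
  have := hchar
  obtain ⟨⟨s₁, hs₁⟩, ⟨s₂, hs₂⟩⟩ := Fermat.Agent.Ribet.H997.redExists p (p * M') hp A hA g hg
  have h₁ := hRF p M' hp hpM A hA g s₁ (Or.inl hs₁)
  have h₂ := hRF p M' hp hpM A hA g s₂ (Or.inr hs₂)
  exact ⟨s₁, s₂, isRedInf_pow hs₁ p, isRedZero_pow hs₂ p,
    pDivSeries_pow hs₁.ne_zero h₁, pDivSeries_pow (IsRedInf.ne_zero hs₂) h₂,
    splitSeries_pow_char hp s₁, splitSeries_pow_char hp s₂⟩

/-- `FinGen` is insensitive to a factor `c · g ^ p`. -/
theorem finGen_const_mul_pow (hRF : RedFieldStatement) (hp : p.Prime) (hpM : ¬ p ∣ M')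
    (hA : A.LiesOverPrime p) {f₀ g : FF (p * M')} {c : Kbar} (hc : c ≠ 0) (hg : g ≠ 0)
    (h : FinGen p M' A f₀) :
    FinGen p M' A (algebraMap Kbar (FF (p * M')) c * (f₀ * g ^ p)) := by
  obtain ⟨r₁, r₂, h1, h2, h3, h4⟩ := h
  obtain ⟨s₁, s₂, hs1, hs2, hp1, hp2, -, -⟩ := exists_red_pow hRF hp hpM hA hg
  exact ⟨r₁ * s₁ ^ p, r₂ * s₂ ^ p, isRedInf_const_mul (h1.mul hs1) hc,
    isRedZero_const_mul (h2.mul hs2) hc, h3.mul hp1, h4.mul hp2⟩

/-- `SplitGen` is insensitive to a factor `c · g ^ p`. -/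
theorem splitGen_const_mul_pow (hRF : RedFieldStatement) (hp : p.Prime) (hpM : ¬ p ∣ M')
    (hA : A.LiesOverPrime p) {f₀ g : FF (p * M')} {c : Kbar} (hc : c ≠ 0) (hg : g ≠ 0)
    (h : SplitGen p M' A f₀) :
    SplitGen p M' A (algebraMap Kbar (FF (p * M')) c * (f₀ * g ^ p)) := by
  obtain ⟨r₁, r₂, h1, h2, h3, h4, h5, h6⟩ := h
  obtain ⟨s₁, s₂, hs1, hs2, hp1, hp2, hq1, hq2⟩ := exists_red_pow hRF hp hpM hA hg
  exact ⟨r₁ * s₁ ^ p, r₂ * s₂ ^ p, isRedInf_const_mul (h1.mul hs1) hc,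
    isRedZero_const_mul (h2.mul hs2) hc, h3.mul hp1, h4.mul hp2, h5.mul hq1, h6.mul hq2⟩

end Gen

/-- **GEN** from REDFIELD: membership in `finSet` / `splitSet` can be tested on any Kummer
generator. -/
theorem genIndep_of (hRF : RedFieldStatement) : GenIndepStatement := by
  intro p M' _ _ _ hp hpM A hA x f hf
  constructor
  · rintro ⟨f₀, hf₀, hF⟩
    obtain ⟨c, g, hc, hg, rfl⟩ := exists_eq_const_mul_pow hf hf₀
    exact finGen_const_mul_pow hRF hp hpM hA hc hg hF
  · rintro ⟨f₀, hf₀, hF⟩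
    obtain ⟨c, g, hc, hg, rfl⟩ := exists_eq_const_mul_pow hf hf₀
    exact splitGen_const_mul_pow hRF hp hpM hA hc hg hF

end Fermat.Agent.Ribet.H669

end
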