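import Fermat.Agent.Ribet.H669.DictAlg
import Fermat.Agent.Ribet.H103.S2Spec
import Fermat.Agent.Ribet.H573.SplitLift
import Fermat.Agent.Ribet.H247.DictPure
import Fermat.Agent.S35.G.H862.Model
import Fermat.Agent.A2.IF.H429.IF
import Fermat.Agent.A2.Mod.H751.Stau
import Fermat.Agent.Lib.HI.H864.Modular

/-!
# RIBET row 38, WALL-p, (S2), leaf DICT (helper669)

`dictFor669 : H103.S2.DictFor p M' A (H884.splitPart p M' A)` for every prime `p ∤ M'` carrying
the auxiliary prime (`p = 3 → 2 ∣ M'`, `p = 2 → 3 ∣ M'`): the classes of the split part are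
split-reduction classes.

Route: `x ∈ 𝒮` has a Kummer generator `f` with `f ∈ ℚ̄ˣ (Fˣ)^p (1 + 𝔪_{V∞})` and the same for
`w_N f` (`H573.splitGen_redPow`); descend `f`, the two `p`-th roots and the `p`-th roots of the
two constants to a good level `E` (`IF.H429.ifStatement`); at the level `E` the Gauss valuation
rings `V∞`, `V₀ = V∞ ∘ W` are two distinct rank one valuation rings with the common uniformiser
`w`, so by weak approximation (`exists_normalise669`) `y = y₀ / a^p ∈ (1 + 𝔪_{V∞}) ∩ (1 + 𝔪_{V₀})`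
for ONE `a`; on the standard model (`S35.G.H862.model`, charts with their cut data)
`V∞ = B_{p₁}`, `V₀ = B_{p₂}` (`exists_frac669`), so `y` is split with constant `1` on both charts,
and pure at every closed point (`H247.pureAt_both_of_isSplit247`).
-/

set_option autoImplicit false
set_option linter.unusedSectionVars false
set_option linter.style.haveILetI false
set_option synthInstance.maxHeartbeats 400000
set_option maxHeartbeats 1600000

noncomputable section

namespace Fermat.Agent.Ribet.H669.Dict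

open AlgebraicCurve ModularCurve HahnSeries
open Fermat.Agent.A2 Fermat.Agent.A2.Alg Fermat.Agent.A2.T1.H669
open Fermat.Agent.A2.H48 Fermat.Agent.A2.H129


/-! ## The Gauss valuation: from the level `E` to `ℚ̄` -/

section Bridge

variable {p : ℕ} (hp : p ≠ 0) {A : ValuationSubring A2.Qb} (hA : A.LiesOverPrime p)
  {E : IntermediateField ℚ A2.Qb} {N : ℕ}

/-- the inclusion `R_E → A`. -/
def toA669 (A : ValuationSubring A2.Qb) (E : IntermediateField ℚ A2.Qb) :
    ↥(RE A E) →+* ↥A.toSubring where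
  toFun r := ⟨((r : E) : A2.Qb), r.2⟩
  map_one' := rfl
  map_mul' _ _ := rfl
  map_zero' := rfl
  map_add' _ _ := rfl

theorem inclL_toA669 (U : LaurentSeries ↥(RE A E)) :
    Fermat.Agent.S28.H86.inclL A.toSubring (coeffMap (toA669 A E) U) =
      coeffMap (algebraMap E A2.Qb) (H708.incl (RE A E) U) := by
  ext n
  rfl

/-- Gauss-integral at the level `E` ⟹ Gauss-integral over `ℚ̄`. -/
theorem iota_mem_vinf669 {V : ValuationSubring (FE E N)} (hV : Mod.IsVinf A E N V)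
    {f : FE E N} (hf : f ∈ V) :
    iota E (modularFunctionFieldFull N) f ∈ Fermat.Agent.Ribet.H573.VInf p A hA N hp := by
  obtain ⟨U₁, U₂, h₂, -, he⟩ := (hV f).mp hf
  show ((iota E (modularFunctionFieldFull N) f : ↥(laurentBaseChange A2.Qb (modularFunctionFieldFull N))) :
    LaurentSeries A2.Qb) ∈ H553.gaussA A
  refine H553.mem_gaussA_iff.mpr ⟨coeffMap (toA669 A E) U₁, coeffMap (toA669 A E) U₂, ?_, ?_⟩
  · rw [H553.redL_ne_zero_iff]
    obtain ⟨n, hn⟩ := (H708.red_ne_zero_iff (RE A E) U₂).mp h₂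
    refine ⟨n, ?_⟩
    show A.valuation ((((U₂.coeff n : ↥(RE A E)) : E)) : A2.Qb) = 1
    have hx0 : ((U₂.coeff n : ↥(RE A E)) : E) ≠ 0 := by
      intro h0
      rw [h0, map_zero] at hn
      exact zero_ne_one hn
    obtain ⟨h1, h2⟩ := (H553.valuation_eq_one_iff_mem (RE A E) hx0).mp hn
    have hq0 : ((((U₂.coeff n : ↥(RE A E)) : E)) : A2.Qb) ≠ 0 := by
      intro h0
      exact hx0 (Subtype.ext h0)
    refine (H553.valuation_eq_one_iff_mem A hq0).mpr ⟨?_, ?_⟩
    · exact h1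
    · have h2' : ((((U₂.coeff n : ↥(RE A E)) : E)⁻¹ : E) : A2.Qb) ∈ A := h2
      rwa [IntermediateField.coe_inv] at h2'
  · rw [inclL_toA669, inclL_toA669, coe_iota, ← map_mul, he]

/-- `1 + 𝔪` descends from `ℚ̄` to the level `E`. -/
theorem oneAdd_of_iota669 {V : ValuationSubring (FE E N)} (hV : Mod.IsVinf A E N V)
    {z : FE E N}
    (h : OneAddNonunits (Fermat.Agent.Ribet.H573.VInf p A hA N hp)
      (iota E (modularFunctionFieldFull N) z)) : OneAddNonunits V z := by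
  show V.valuation (z - 1) < 1
  by_contra hcon
  have hcon' : 1 ≤ V.valuation (z - 1) := not_lt.mp hcon
  have hz0 : z - 1 ≠ 0 := by
    intro h0
    rw [h0, map_zero] at hcon'
    exact absurd hcon' (by simp)
  have hinv : (z - 1)⁻¹ ∈ V := by
    rw [← V.valuation_le_one_iff, map_inv₀]
    exact inv_le_one_of_one_le₀ hcon'
  have h1 := iota_mem_vinf669 hp hA hV hinv
  rw [map_inv₀, map_sub, map_one] at h1
  have h2 : (Fermat.Agent.Ribet.H573.VInf p A hA N hp).valuation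
      (iota E (modularFunctionFieldFull N) z - 1) < 1 := h
  have hx0 : iota E (modularFunctionFieldFull N) z - 1 ≠ 0 := by
    intro h0
    apply hz0
    apply iota_injective E (modularFunctionFieldFull N)
    rw [map_sub, map_one, h0, map_zero]
  have h3 := ((Fermat.Agent.Ribet.H573.VInf p A hA N hp).valuation_le_one_iff _).2 h1
  rw [map_inv₀, inv_le_one₀ (zero_lt_iff.2 ((Valuation.ne_zero_iff _).2 hx0))] at h3
  exact absurd h2 (not_lt.2 h3)

end Bridge

/-! ## Rank one -/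

section Arch

/-- in a discrete valuation ring every element of the fraction field has bounded denominator. -/
theorem exists_pow_mul_mem669 {F : Type*} [Field F] (A : ValuationSubring F)
    [IsDiscreteValuationRing A] {w : A} (hw : Irreducible w) (c : F) :
    ∃ k : ℕ, (w : F) ^ k * c ∈ A := by
  rcases A.mem_or_inv_mem c with h | h
  · exact ⟨0, by simpa using h⟩
  · by_cases hc : c = 0
    · exact ⟨0, by rw [hc, mul_zero]; exact A.zero_mem⟩
    have hy : (⟨c⁻¹, h⟩ : A) ≠ 0 := by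
      intro h0
      exact inv_ne_zero hc (congrArg Subtype.val h0)
    obtain ⟨n, u, hu⟩ := IsDiscreteValuationRing.eq_unit_mul_pow_irreducible hy hw
    refine ⟨n, ?_⟩
    have h1 : c⁻¹ = ((u : A) : F) * (w : F) ^ n := by
      have := congrArg Subtype.val hu
      simpa using this
    have hu0 : ((u : A) : F) ≠ 0 := by
      intro h0
      exact u.ne_zero (Subtype.ext h0)
    have h2 : (w : F) ^ n * c = (((u⁻¹ : Aˣ) : A) : F) := by
      have h3 : ((u : A) : F) * (((u⁻¹ : Aˣ) : A) : F) = 1 := by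
        have h4 : ((u : A) * ((u⁻¹ : Aˣ) : A) : A) = 1 := u.mul_inv
        have h5 := congrArg (fun z : A => (z : F)) h4
        exact h5
      have hc' : c = (((u : A) : F) * (w : F) ^ n)⁻¹ := by rw [← h1, inv_inv]
      have hw0 : (w : F) ^ n ≠ 0 := by
        intro h0
        rw [h0, mul_zero] at h1
        exact inv_ne_zero hc h1
      rw [hc']
      field_simp
      rw [h3]
    rw [h2]
    exact ((u⁻¹ : Aˣ) : A).2

variable {A : ValuationSubring A2.Qb} {E : IntermediateField ℚ A2.Qb} {N : ℕ}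

/-- `V∞` has rank one. -/
theorem arch669 (hdvr : IsDiscreteValuationRing (RE A E)) {w : RE A E} (hw : Irreducible w)
    {V : ValuationSubring (FE E N)} (hV : Mod.IsVinf A E N V) (a : FE E N) :
    ∃ k : ℕ, (algebraMap (RE A E) (FE E N) w) ^ k * a ∈ V := by
  haveI := hdvr
  by_cases ha : a = 0
  · exact ⟨0, by rw [ha, mul_zero]; exact V.zero_mem⟩
  obtain ⟨c, hc0, hu⟩ := Mod.H553.exists_const_mul_unit A E hV ha
  obtain ⟨k, hk⟩ := exists_pow_mul_mem669 (RE A E) hw c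
  refine ⟨k, ?_⟩
  have huV : a * (algebraMap E (FE E N) c)⁻¹ ∈ V := (V.valuation_le_one_iff _).mp hu.le
  have hcF : algebraMap E (FE E N) c ≠ 0 :=
    (map_ne_zero_iff _ (algebraMap E (FE E N)).injective).mpr hc0
  have h1 : (algebraMap (RE A E) (FE E N) w) ^ k * a
      = (a * (algebraMap E (FE E N) c)⁻¹) * algebraMap E (FE E N) ((w : E) ^ k * c) := by
    rw [map_mul, map_pow]
    show algebraMap E (FE E N) (w : E) ^ k * a = _
    field_simp
  rw [h1]
  exact V.mul_mem _ _ huV ((Mod.H553.algebraMap_mem_iff A E hV _).mpr hk)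

/-- `V₀ = V∞ ∘ W` has rank one. -/
theorem arch_comap669 (hdvr : IsDiscreteValuationRing (RE A E)) {w : RE A E}
    (hw : Irreducible w) {V : ValuationSubring (FE E N)} (hV : Mod.IsVinf A E N V)
    (W : FE E N ≃ₐ[E] FE E N) (a : FE E N) :
    ∃ k : ℕ, (algebraMap (RE A E) (FE E N) w) ^ k * a ∈
      V.comap (W : FE E N →+* FE E N) := by
  obtain ⟨k, hk⟩ := arch669 hdvr hw hV (W a)
  refine ⟨k, ?_⟩
  show W ((algebraMap (RE A E) (FE E N) w) ^ k * a) ∈ V
  have hWc : W (algebraMap (RE A E) (FE E N) w) = algebraMap (RE A E) (FE E N) w :=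
    W.commutes (w : E)
  rw [map_mul, map_pow, hWc]
  exact hk

/-- `1 + 𝔪` for the pulled-back valuation ring. -/
theorem oneAdd_comap669 {F : Type*} [Field F] (V : ValuationSubring F) (W : F →+* F) {z : F}
    (h : OneAddNonunits V (W z)) : OneAddNonunits (V.comap W) z := by
  have h' : V.valuation (W z - 1) < 1 := h
  show (V.comap W).valuation (z - 1) < 1
  rw [← ValuationSubring.mem_nonunits_iff] at h' ⊢
  rw [Mod.H13.mem_nonunits_comap, map_sub, map_one]
  exact h'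

end Arch

/-! ## Kummer functions -/

section Kummer

/-- Dividing a Kummer function by a `p`-th power does not change the class. -/
theorem isKummerFn_mul_pow669 {N p : ℕ} [NeZero N] {x : JZero N} {f h : modularFunctionFieldBar N}
    (hf : Fermat.Agent.Ribet.H884.IsKummerGen N p f x) (hh : h ≠ 0) :
    Fermat.Agent.Ribet.H103.S2.IsKummerFn N p x (f * (h ^ p)⁻¹) := by
  obtain ⟨hf0, D, hD, hord⟩ := hf
  haveI := Fermat.Agent.Lib.HI.H864.hasPrincipalDivisors_FF N
  obtain ⟨Dh, hDh, hdeg⟩ := HasPrincipalDivisors.exists_divisor (K := AlgebraicClosure ℚ) h hh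
  let Dh' : Divisor.degZero (K := AlgebraicClosure ℚ) (F := modularFunctionFieldBar N) :=
    ⟨Dh, hdeg⟩
  have hprin : Pic0.mk Dh' = 0 := by
    refine (QuotientAddGroup.eq_zero_iff Dh').2 ?_
    rw [AddSubgroup.mem_addSubgroupOf]
    exact ⟨h, hh, hDh⟩
  refine ⟨mul_ne_zero hf0 (inv_ne_zero (pow_ne_zero p hh)), D - Dh', ?_, fun v => ?_⟩
  · have e : Pic0.mk (D - Dh') = Pic0.mk D - Pic0.mk Dh' := rfl
    rw [e, hprin, sub_zero, hD]
  · have hsub : ((D - Dh' : Divisor.degZero (K := AlgebraicClosure ℚ)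
        (F := modularFunctionFieldBar N)) : Divisor (AlgebraicClosure ℚ)
          (modularFunctionFieldBar N)) v =
        (D : Divisor (AlgebraicClosure ℚ) (modularFunctionFieldBar N)) v - v.ord h := by
      rw [← hDh v]
      rfl
    rw [Place.ord_mul v hf0 (inv_ne_zero (pow_ne_zero p hh)), Place.ord_inv,
      Fermat.Agent.A2.H129.ord_pow, hord, hsub]
    ring

end Kummer

/-! ## The standard model -/

section Model

variable (A : ValuationSubring A2.Qb) (E : IntermediateField ℚ A2.Qb) (M p : ℕ) [NeZero M] [NeZero p]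

theorem setting669 (hp : p.Prime) (hpM : ¬ p ∣ M) (hA : A.LiesOverPrime p) (hE : GoodField A E)
    (w : RE A E) (hw : Irreducible w) : Mod.Setting A E M p w :=
  { q_prime := hp
    q_not_dvd := hpM
    M_ne_zero := NeZero.ne M
    lies_over := hA
    dvr := hE.dvr
    unif := hw }

/-- **The standard semistable model** of `X₀(M p)` over `R_E` (coordinate `x = j · j_p`). -/
def modData669 (hp : p.Prime) (hpM : ¬ p ∣ M) (h3 : p = 3 → 2 ∣ M) (h2 : p = 2 → 3 ∣ M)
    (hA : A.LiesOverPrime p) (hE : GoodField A E) : ModSSData A E (M * p) :=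
  { x := Mod.xE E M p
    hx := (Mod.H31.deg E M p hp hpM).1
    hfin := by
      have hpos : 0 < Module.finrank
          (IntermediateField.adjoin E ({Mod.xE E M p} : Set (FE E (M * p)))) (FE E (M * p)) := by
        rw [(Mod.H31.deg E M p hp hpM).2.1]
        have h1 := Mod.dedekindPsi_pos_of_ne_zero M (NeZero.ne M)
        positivity
      exact Module.finite_of_finrank_pos hpos
    hconst := (Mod.H31.deg E M p hp hpM).2.2
    Bf := Mod.chartAlg A E (M * p) (Mod.xE E M p)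
    Bi := Mod.chartAlg A E (M * p) (Mod.xE E M p)⁻¹
    hBf := fun _ => Iff.rfl
    hBi := fun _ => Iff.rfl
    cf := fun w hw => by
      obtain ⟨V, W, VM, _, _, _, _, _, _, _, _, cf, ci, _, _⟩ :=
        Fermat.Agent.S35.G.H862.model A E M p w (setting669 A E M p hp hpM hA hE w hw) hE ⟨h3, h2⟩
      exact ⟨cf⟩
    ci := fun w hw => by
      obtain ⟨V, W, VM, _, _, _, _, _, _, _, _, cf, ci, _, _⟩ :=
        Fermat.Agent.S35.G.H862.model A E M p w (setting669 A E M p hp hpM hA hE w hw) hE ⟨h3, h2⟩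
      exact ⟨ci⟩
    sf := by
      haveI := hE.dvr
      obtain ⟨w, hw⟩ := IsDiscreteValuationRing.exists_irreducible (RE A E)
      obtain ⟨V, W, VM, _, _, _, _, _, _, hsf, hsi, cf, ci, _, _⟩ :=
        Fermat.Agent.S35.G.H862.model A E M p w (setting669 A E M p hp hpM hA hE w hw) hE ⟨h3, h2⟩
      exact hsf
    si := by
      haveI := hE.dvr
      obtain ⟨w, hw⟩ := IsDiscreteValuationRing.exists_irreducible (RE A E)
      obtain ⟨V, W, VM, _, _, _, _, _, _, hsf, hsi, cf, ci, _, _⟩ :=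
        Fermat.Agent.S35.G.H862.model A E M p w (setting669 A E M p hp hpM hA hE w hw) hE ⟨h3, h2⟩
      exact hsi
    hτx := fun hE' τ hτ => by
      haveI := hE.dvr
      obtain ⟨w, hw⟩ := IsDiscreteValuationRing.exists_irreducible (RE A E)
      exact ((Mod.H751.stau_of_s1 A E M p w (Fermat.Agent.S35.G.H862.s1 A E M p w))
        (setting669 A E M p hp hpM hA hE w hw) τ (hE'.res τ hτ) hτ (fun _ => rfl)).1
    hτf := fun hE' τ hτ w hw b hb =>
      ((Mod.H751.stau_of_s1 A E M p w (Fermat.Agent.S35.G.H862.s1 A E M p w))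
        (setting669 A E M p hp hpM hA hE w hw) τ (hE'.res τ hτ) hτ (fun _ => rfl)).2 _
          (Or.inl rfl) b hb
    hτi := fun hE' τ hτ w hw b hb =>
      ((Mod.H751.stau_of_s1 A E M p w (Fermat.Agent.S35.G.H862.s1 A E M p w))
        (setting669 A E M p hp hpM hA hE w hw) τ (hE'.res τ hτ) hτ (fun _ => rfl)).2 _
          (Or.inr rfl) b hb }

end Model

/-! ## The level `E` -/

section Level

variable {A : ValuationSubring A2.Qb} {E : IntermediateField ℚ A2.Qb} {M p : ℕ} [NeZero M] [NeZero p]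
  [NeZero (M * p)]

/-- one chart: `y ∈ (1 + 𝔪_{V∞}) ∩ (1 + 𝔪_{V₀})` is split. -/
theorem isSplit_of_oneAdd669 (hdvr : IsDiscreteValuationRing (RE A E)) {w : RE A E}
    (hw : Irreducible w) {V : ValuationSubring (FE E (M * p))}
    (W : FE E (M * p) ≃ₐ[E] FE E (M * p)) (hV : Mod.IsVinf A E (M * p) V)
    (hU : IsUnif V (algebraMap (RE A E) (FE E (M * p)) w))
    (hU₀ : IsUnif (V.comap (W : FE E (M * p) →+* FE E (M * p)))
      (algebraMap (RE A E) (FE E (M * p)) w))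
    (x : FE E (M * p)) (B : Subalgebra (RE A E) (FE E (M * p))) (hB : ChartCtx E w x B)
    (c : SSChart w B)
    (hc : Fermat.Agent.S35.G.CutBy w B c V (V.comap (W : FE E (M * p) →+* FE E (M * p))))
    (y : FE E (M * p)) (h₁ : OneAddNonunits V y)
    (h₂ : OneAddNonunits (V.comap (W : FE E (M * p) →+* FE E (M * p))) y) :
    IsSplit B c y := by
  haveI := hdvr
  haveI hfr : IsFractionRing B (FE E (M * p)) := (H34.chart_instances' w x B hB).2.2
  have hfrac : ∀ f : FE E (M * p), ∃ a b : B, b ≠ 0 ∧ f * (b : FE E (M * p)) = (a : FE E (M * p)) := by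
    intro f
    obtain ⟨a, b, hb, hab⟩ := IsFractionRing.div_surjective (A := B) f
    have hb0 : b ≠ 0 := nonZeroDivisors.ne_zero hb
    refine ⟨a, b, hb0, ?_⟩
    have hbF : (algebraMap B (FE E (M * p)) b) ≠ 0 := by
      intro h0
      exact hb0 ((IsFractionRing.injective B (FE E (M * p))) (h0.trans (map_zero _).symm))
    rw [← hab]
    exact div_mul_cancel₀ _ hbF
  constructor
  · exact constAt_of_oneAdd669 B V w hU hc.le₁ c.p₁ hc.cut₁
      (exists_frac669 B V w hU (arch669 hdvr hw hV) hc.le₁ c.p₁ c.p₂ hc.cut₁ c.inf_eq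
        c.not_le₂₁ hfrac) y h₁
  · exact constAt_of_oneAdd669 B _ w hU₀ hc.le₂ c.p₂ hc.cut₂
      (exists_frac669 B _ w hU₀ (arch_comap669 hdvr hw hV W) hc.le₂ c.p₂ c.p₁ hc.cut₂
        (by rw [inf_comm]; exact c.inf_eq) c.not_le₁₂ hfrac) y h₂

/-- **DICT at the level `E`.**  If `y₀ ∈ a₁^p (1 + 𝔪_{V∞})` and `W y₀ ∈ a₂^p (1 + 𝔪_{V∞})`, then
`y₀ / a^p` is split on both charts of the standard model, for ONE `a`. -/
theorem exists_split669 (hp : p.Prime) (hpM : ¬ p ∣ M) (h3 : p = 3 → 2 ∣ M)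
    (h2 : p = 2 → 3 ∣ M) (hA : A.LiesOverPrime p) (hE : GoodField A E)
    (y₀ a₁ a₂ : FE E (M * p)) (ha₁ : a₁ ≠ 0) (ha₂ : a₂ ≠ 0)
    (h : ∀ V : ValuationSubring (FE E (M * p)), Mod.IsVinf A E (M * p) V →
      OneAddNonunits V (y₀ * (a₁ ^ p)⁻¹) ∧
      OneAddNonunits V (Mod.H751.frickeE E (M * p) y₀ * (a₂ ^ p)⁻¹)) :
    ∃ (w : RE A E) (a : FE E (M * p))
      (cf : SSChart w (modData669 A E M p hp hpM h3 h2 hA hE).Bf)
      (ci : SSChart w (modData669 A E M p hp hpM h3 h2 hA hE).Bi),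
      Irreducible w ∧ a ≠ 0 ∧
      IsSplit (modData669 A E M p hp hpM h3 h2 hA hE).Bf cf (y₀ * (a ^ p)⁻¹) ∧
      IsSplit (modData669 A E M p hp hpM h3 h2 hA hE).Bi ci (y₀ * (a ^ p)⁻¹) := by
  haveI hdvr := hE.dvr
  obtain ⟨w, hw⟩ := IsDiscreteValuationRing.exists_irreducible (RE A E)
  have hS := setting669 A E M p hp hpM hA hE w hw
  have hN : M * p ≠ 0 := mul_ne_zero (NeZero.ne M) (NeZero.ne p)
  obtain ⟨V, W, VM, hV, hW, hVM, -, -, -, -, -, cf, ci, hcf, hci⟩ :=
    Fermat.Agent.S35.G.H862.model A E M p w hS hE ⟨h3, h2⟩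
  obtain rfl : W = Mod.H751.frickeE E (M * p) :=
    Mod.H553.isFricke_unique E hN hW (Mod.H751.isFricke_frickeE E (M * p))
  have hUc : IsUnif V (Mod.cE A E (M * p) w) :=
    (Mod.H553.vinfBasic A E w (M * p) hN hdvr hw V hV).1
  have hU : IsUnif V (algebraMap (RE A E) (FE E (M * p)) w) := hUc
  have hU₀c : IsUnif
      (V.comap ((Mod.H751.frickeE E (M * p)) : FE E (M * p) →+* FE E (M * p)))
      (Mod.cE A E (M * p) w) :=
    Mod.H13.isUnif_comap hUc (Mod.H751.frickeE E (M * p))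
  have hU₀ : IsUnif (V.comap ((Mod.H751.frickeE E (M * p)) : FE E (M * p) →+* FE E (M * p)))
      (algebraMap (RE A E) (FE E (M * p)) w) := hU₀c
  have hne : V ≠ V.comap ((Mod.H751.frickeE E (M * p)) : FE E (M * p) →+* FE E (M * p)) :=
    fun h => Mod.H553.vzeroNe A E M p w hS V _ hV hW h.symm
  obtain ⟨h₁, h₂⟩ := h V hV
  -- transport the second condition to `V₀`
  set a₂' : FE E (M * p) := Mod.H751.frickeE E (M * p) a₂ with ha₂'
  have ha₂'0 : a₂' ≠ 0 := by
    rw [ha₂']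
    exact (map_ne_zero_iff _ (Mod.H751.frickeE E (M * p)).injective).mpr ha₂
  have h₂' : OneAddNonunits
      (V.comap ((Mod.H751.frickeE E (M * p)) : FE E (M * p) →+* FE E (M * p)))
      (y₀ * (a₂' ^ p)⁻¹) := by
    refine oneAdd_comap669 V
      ((Mod.H751.frickeE E (M * p)) : FE E (M * p) →+* FE E (M * p)) ?_
    show OneAddNonunits V (Mod.H751.frickeE E (M * p) (y₀ * (a₂' ^ p)⁻¹))
    rw [map_mul, map_inv₀, map_pow, ha₂', Mod.H751.frickeE_frickeE]
    exact h₂
  obtain ⟨a, ha0, hy₁, hy₂⟩ := exists_normalise669 hU hU₀ hne (arch669 hdvr hw hV)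
    (arch_comap669 hdvr hw hV _) p y₀ a₁ a₂' ha₁ ha₂'0 h₁ h₂'
  have hx : Transcendental E (Mod.xE E M p) :=
    (modData669 A E M p hp hpM h3 h2 hA hE).hx
  have hfin : FiniteDimensional
      (IntermediateField.adjoin E ({Mod.xE E M p} : Set (FE E (M * p)))) (FE E (M * p)) :=
    (modData669 A E M p hp hpM h3 h2 hA hE).hfin
  have hconst : ∀ f : FE E (M * p), IsAlgebraic E f → f ∈ (algebraMap E (FE E (M * p))).range :=
    (modData669 A E M p hp hpM h3 h2 hA hE).hconst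
  refine ⟨w, a, cf, ci, hw, ha0, ?_, ?_⟩
  · exact isSplit_of_oneAdd669 hdvr hw _ hV hU hU₀ (Mod.xE E M p)
      (Mod.chartAlg A E (M * p) (Mod.xE E M p))
      ⟨hw, hx, hfin, hconst, fun _ => Iff.rfl⟩ cf hcf _ hy₁ hy₂
  · exact isSplit_of_oneAdd669 hdvr hw _ hV hU hU₀ (Mod.xE E M p)⁻¹
      (Mod.chartAlg A E (M * p) (Mod.xE E M p)⁻¹)
      (H34.chartCtx_inv w hw (Mod.xE E M p) hx hfin hconst _ (fun _ => Iff.rfl))
      ci hci _ hy₁ hy₂

end Level

/-! ## The leaf DICT -/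

section Top

open Fermat.Agent.Ribet.H103.S2

/-- `H103.S2.SplitRedClass` at a general level `N` (`= SplitRedClass` for `N = p * M'`). -/
def SplitRedAt (N p : ℕ) [NeZero p] (hpN : p ∣ N) (A : ValuationSubring A2.Qb) (x : JZero N) :
    Prop :=
  ∃ (E : IntermediateField ℚ A2.Qb) (_ : GoodField A E) (D : ModSSData A E N)
    (w : RE A E) (y : FE E N) (cf : SSChart w D.Bf) (ci : SSChart w D.Bi),
    D.x = stdCoord E N p hpN ∧ Irreducible w ∧
    IsKummerFn N p x (iota E (modularFunctionFieldFull N) y) ∧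
    RedPowAt D.Bf cf.p₁ p y ∧ RedPowAt D.Bf cf.p₂ p y ∧
    RedPowAt D.Bi ci.p₁ p y ∧ RedPowAt D.Bi ci.p₂ p y ∧
    (∀ n : Ideal D.Bf, n.IsMaximal → algebraMap (RE A E) D.Bf w ∈ n → PureAt D.Bf cf p y n) ∧
    (∀ n : Ideal D.Bi, n.IsMaximal → algebraMap (RE A E) D.Bi w ∈ n → PureAt D.Bi ci p y n)

theorem splitRedClass_iff669 (p M' : ℕ) [NeZero p] (A : ValuationSubring A2.Qb)
    (x : JZero (p * M')) :
    SplitRedClass p M' A x ↔ SplitRedAt (p * M') p (dvd_mul_right p M') A x := Iff.rfl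

theorem redPowAt_of_constAt669 {R F : Type*} [CommRing R] [Field F] [Algebra R F]
    {B : Subalgebra R F} {𝔭 : Ideal B} {p : ℕ} {y : F} (h : ConstAt B 𝔭 y) :
    RedPowAt B 𝔭 p y :=
  ⟨1, one_ne_zero, by rw [one_pow, mul_one]; exact h⟩

/-- **DICT at the level `M * p`.** -/
theorem splitRedAt669 (p M : ℕ) [NeZero M] [NeZero p] [NeZero (M * p)] (hp : p.Prime)
    (hpM : ¬ p ∣ M) (h3 : p = 3 → 2 ∣ M) (h2 : p = 2 → 3 ∣ M)
    (A : ValuationSubring A2.Qb) (hA : A.LiesOverPrime p)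
    (x : JZero (M * p)) (f : modularFunctionFieldBar (M * p))
    (hf : Fermat.Agent.Ribet.H884.IsKummerGen (M * p) p f x)
    (hInf : Fermat.Agent.Ribet.H573.RedPow p A hA (M * p) hp.ne_zero f)
    (h0 : Fermat.Agent.Ribet.H573.RedPow p A hA (M * p) hp.ne_zero
      (Fermat.Agent.A2.H528.wF (M * p) f)) :
    SplitRedAt (M * p) p (dvd_mul_left p M) A x := by
  classical
  obtain ⟨c₁, hc₁, g₁, hg₁, hu₁⟩ := hInf
  obtain ⟨c₂, hc₂, g₂, hg₂, hu₂⟩ := h0
  obtain ⟨γ₁, hγ₁⟩ := IsAlgClosed.exists_pow_nat_eq c₁ hp.pos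
  obtain ⟨γ₂, hγ₂⟩ := IsAlgClosed.exists_pow_nat_eq c₂ hp.pos
  have hγ₁0 : γ₁ ≠ 0 := by
    rintro rfl
    rw [zero_pow hp.ne_zero] at hγ₁
    exact hc₁ hγ₁.symm
  have hγ₂0 : γ₂ ≠ 0 := by
    rintro rfl
    rw [zero_pow hp.ne_zero] at hγ₂
    exact hc₂ hγ₂.symm
  obtain ⟨Sf, hSf⟩ := exists_finset_descent (modularFunctionFieldFull (M * p)) f
  obtain ⟨S₁, hS₁⟩ := exists_finset_descent (modularFunctionFieldFull (M * p)) g₁
  obtain ⟨S₂, hS₂⟩ := exists_finset_descent (modularFunctionFieldFull (M * p)) g₂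
  obtain ⟨E, hSE, hE⟩ := Fermat.Agent.A2.IF.H429.ifStatement p hp A hA
    (Sf ∪ S₁ ∪ S₂ ∪ {γ₁, γ₂})
  obtain ⟨y₀, hy₀⟩ := hSf E (fun s hs => hSE s (by simp [hs]))
  obtain ⟨G₁, hG₁⟩ := hS₁ E (fun s hs => hSE s (by simp [hs]))
  obtain ⟨G₂, hG₂⟩ := hS₂ E (fun s hs => hSE s (by simp [hs]))
  have hγ₁E : γ₁ ∈ E := hSE γ₁ (by simp)
  have hγ₂E : γ₂ ∈ E := hSE γ₂ (by simp)
  have hG₁0 : G₁ ≠ 0 := by
    rintro rfl
    rw [map_zero] at hG₁
    exact hg₁ hG₁.symm
  have hG₂0 : G₂ ≠ 0 := by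
    rintro rfl
    rw [map_zero] at hG₂
    exact hg₂ hG₂.symm
  set a₁ : FE E (M * p) := algebraMap E (FE E (M * p)) ⟨γ₁, hγ₁E⟩ * G₁ with ha₁
  set a₂ : FE E (M * p) := algebraMap E (FE E (M * p)) ⟨γ₂, hγ₂E⟩ * G₂ with ha₂
  have hcE : ∀ (γ : A2.Qb) (hγ : γ ∈ E), γ ≠ 0 →
      algebraMap E (FE E (M * p)) ⟨γ, hγ⟩ ≠ 0 := by
    intro γ hγ h0
    refine (map_ne_zero_iff _ (algebraMap E (FE E (M * p))).injective).mpr ?_
    intro h
    exact h0 (congrArg Subtype.val h)
  have ha₁0 : a₁ ≠ 0 := mul_ne_zero (hcE γ₁ hγ₁E hγ₁0) hG₁0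
  have ha₂0 : a₂ ≠ 0 := mul_ne_zero (hcE γ₂ hγ₂E hγ₂0) hG₂0
  have hcst : ∀ (γ c : A2.Qb), γ ^ p = c →
      (algebraMap A2.Qb (modularFunctionFieldBar (M * p)) γ) ^ p =
        Fermat.Agent.Ribet.H573.cst (M * p) c := by
    intro γ c h
    rw [← map_pow, h]
  have hia₁ : (iota E (modularFunctionFieldFull (M * p)) a₁) ^ p =
      Fermat.Agent.Ribet.H573.cst (M * p) c₁ * g₁ ^ p := by
    rw [ha₁, map_mul, iota_algebraMap, hG₁, mul_pow]
    exact congrArg (· * g₁ ^ p) (hcst γ₁ c₁ hγ₁)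
  have hia₂ : (iota E (modularFunctionFieldFull (M * p)) a₂) ^ p =
      Fermat.Agent.Ribet.H573.cst (M * p) c₂ * g₂ ^ p := by
    rw [ha₂, map_mul, iota_algebraMap, hG₂, mul_pow]
    exact congrArg (· * g₂ ^ p) (hcst γ₂ c₂ hγ₂)
  have hfr : iota E (modularFunctionFieldFull (M * p)) (Mod.H751.frickeE E (M * p) y₀) =
      Fermat.Agent.A2.H528.wF (M * p) f := by
    have := Mod.H751.iotaE_frickeE E (M * p) y₀
    rw [← hy₀]
    exact this
  have hkey : ∀ V : ValuationSubring (FE E (M * p)), Mod.IsVinf A E (M * p) V →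
      OneAddNonunits V (y₀ * (a₁ ^ p)⁻¹) ∧
      OneAddNonunits V (Mod.H751.frickeE E (M * p) y₀ * (a₂ ^ p)⁻¹) := by
    intro V hV
    constructor
    · refine oneAdd_of_iota669 hp.ne_zero hA hV ?_
      rw [map_mul, map_inv₀, map_pow, hy₀, hia₁, mul_inv, ← mul_assoc]
      exact hu₁
    · refine oneAdd_of_iota669 hp.ne_zero hA hV ?_
      rw [map_mul, map_inv₀, map_pow, hfr, hia₂, mul_inv, ← mul_assoc]
      exact hu₂
  obtain ⟨w, a, cf, ci, hw, ha0, hsf, hsi⟩ :=
    exists_split669 hp hpM h3 h2 hA hE y₀ a₁ a₂ ha₁0 ha₂0 hkey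
  haveI := hE.dvr
  have hy0 : y₀ * (a ^ p)⁻¹ ≠ 0 := by
    refine mul_ne_zero ?_ (inv_ne_zero (pow_ne_zero p ha0))
    rintro rfl
    rw [map_zero] at hy₀
    exact hf.1 hy₀.symm
  have hK : IsKummerFn (M * p) p x
      (iota E (modularFunctionFieldFull (M * p)) (y₀ * (a ^ p)⁻¹)) := by
    rw [map_mul, map_inv₀, map_pow, hy₀]
    exact isKummerFn_mul_pow669 hf (iota_ne_zero E (modularFunctionFieldFull (M * p)) ha0)
  have hdiv : DivisibleDiv E p (y₀ * (a ^ p)⁻¹) := by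
    obtain ⟨-, Dv, -, hord⟩ := hK
    exact divisibleDiv_of_ord E (modularFunctionFieldFull (M * p)) p (y₀ * (a ^ p)⁻¹) hy0
      (fun v => ⟨_, hord v⟩)
  obtain ⟨hpf, hpi⟩ := Fermat.Agent.Ribet.H247.pureAt_both_of_isSplit247 (E := E) p hp.pos w hw
    (modData669 A E M p hp hpM h3 h2 hA hE).x (modData669 A E M p hp hpM h3 h2 hA hE).hx
    (modData669 A E M p hp hpM h3 h2 hA hE).hfin (modData669 A E M p hp hpM h3 h2 hA hE).hconst
    (modData669 A E M p hp hpM h3 h2 hA hE).Bf (modData669 A E M p hp hpM h3 h2 hA hE).Bi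
    (modData669 A E M p hp hpM h3 h2 hA hE).hBf (modData669 A E M p hp hpM h3 h2 hA hE).hBi
    cf ci (y₀ * (a ^ p)⁻¹) hy0 hdiv hsf hsi
  exact ⟨E, hE, modData669 A E M p hp hpM h3 h2 hA hE, w, y₀ * (a ^ p)⁻¹, cf, ci, rfl, hw, hK,
    redPowAt_of_constAt669 hsf.1, redPowAt_of_constAt669 hsf.2, redPowAt_of_constAt669 hsi.1,
    redPowAt_of_constAt669 hsi.2, hpf, hpi⟩

/-- **DICT at a level `N = M * p`** (transport). -/
theorem splitRedAt_gen669 (p M N : ℕ) [NeZero M] [NeZero p] [NeZero N] (hN : N = M * p)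
    (hpN : p ∣ N) (hp : p.Prime) (hpM : ¬ p ∣ M) (h3 : p = 3 → 2 ∣ M) (h2 : p = 2 → 3 ∣ M)
    (A : ValuationSubring A2.Qb) (hA : A.LiesOverPrime p)
    (x : JZero N) (f : modularFunctionFieldBar N)
    (hf : Fermat.Agent.Ribet.H884.IsKummerGen N p f x)
    (hInf : Fermat.Agent.Ribet.H573.RedPow p A hA N hp.ne_zero f)
    (h0 : Fermat.Agent.Ribet.H573.RedPow p A hA N hp.ne_zero (Fermat.Agent.A2.H528.wF N f)) :
    SplitRedAt N p hpN A x := by
  subst hN
  exact splitRedAt669 p M hp hpM h3 h2 A hA x f hf hInf h0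

/-- **Leaf DICT** (`H103.S2.DictFor` for the split part `𝒮 = H884.splitPart`), every prime `p`
at the levels carrying the auxiliary prime. -/
theorem dictFor669 (p M' : ℕ) [NeZero M'] [NeZero p] [NeZero (p * M')] (hp : p.Prime)
    (hpM : ¬ p ∣ M') (h3 : p = 3 → 2 ∣ M') (h2 : p = 2 → 3 ∣ M')
    (A : ValuationSubring A2.Qb) (hA : A.LiesOverPrime p) :
    DictFor p M' A (Fermat.Agent.Ribet.H884.splitPart p M' A) := by
  intro x hx _
  obtain ⟨f, hf, hs⟩ := Fermat.Agent.Ribet.H884.mem_splitSet_of_mem_splitPart hx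
  obtain ⟨hInf, h0⟩ := Fermat.Agent.Ribet.H573.splitGen_redPow hp hpM hA hs
  exact splitRedAt_gen669 p M' (p * M') (Nat.mul_comm p M') (dvd_mul_right p M') hp hpM h3 h2
    A hA x f hf hInf h0

/-- **Leaf DICT for odd `p`** (auxiliary prime `2` at `p = 3`). -/
theorem dictFor_odd669 (p M' : ℕ) [NeZero M'] [NeZero p] [NeZero (p * M')] (hp : p.Prime)
    (hp2 : p ≠ 2) (hpM : ¬ p ∣ M') (h3 : p = 3 → 2 ∣ M')
    (A : ValuationSubring A2.Qb) (hA : A.LiesOverPrime p) :
    DictFor p M' A (Fermat.Agent.Ribet.H884.splitPart p M' A) :=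
  dictFor669 p M' hp hpM h3 (fun h => absurd h hp2) A hA

/-- **Leaf DICT for `p ≥ 5`** (no auxiliary prime needed). -/
theorem dictFor_five669 (p M' : ℕ) [NeZero M'] [NeZero p] [NeZero (p * M')] (hp : p.Prime)
    (hp5 : 5 ≤ p) (hpM : ¬ p ∣ M') (A : ValuationSubring A2.Qb) (hA : A.LiesOverPrime p) :
    DictFor p M' A (Fermat.Agent.Ribet.H884.splitPart p M' A) :=
  dictFor669 p M' hp hpM (fun h => by omega) (fun h => by omega) A hA

end Top

end Fermat.Agent.Ribet.H669.Dict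

end
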