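import Fermat.Agent.A2.H48.TwoVal
import Fermat.Agent.A2.H129.GaussTwice
import Fermat.Agent.A2.Alg.Spec

/-!
# RIBET row 38, WALL-p, (S2), leaf DICT — abstract algebra (helper669)

Mathlib + `A2.H48.IsUnif` + `A2.H129.OneAddNonunits` + `A2.Alg.ConstAt`.

* `exists_idem669`   : two distinct valuation rings with a common uniformiser `ϖ`: for every `m`
                       there is `e` with `e ≡ 1 mod ϖ^m V₁`, `e ≡ 0 mod ϖ^m V₂`;
* `exists_approx669` : weak approximation, multiplicative form: for `a₁, a₂ ≠ 0` there is `a ≠ 0`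
                       with `a / a₁ ∈ 1 + 𝔪₁`, `a / a₂ ∈ 1 + 𝔪₂` (both rings of rank one);
* `exists_normalise669` : `f ∈ a₁^p (1 + 𝔪₁) ∩ a₂^p (1 + 𝔪₂)` ⟹ `f / a^p ∈ (1 + 𝔪₁) ∩ (1 + 𝔪₂)`;
* `exists_frac669`   : `V = B_𝔭` for a component `𝔭 = B ∩ ϖ V` of a chart `B ⊆ V` with
                       `𝔭 ⊓ 𝔭' = (w)`, `𝔭' ⊄ 𝔭`;
* `constAt_of_oneAdd669` : `u ∈ 1 + 𝔪_V` ⟹ `ConstAt B 𝔭 u` (constant `1`).
-/

set_option autoImplicit false

namespace Fermat.Agent.Ribet.H669.Dict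

open Fermat.Agent.A2 Fermat.Agent.A2.Alg Fermat.Agent.A2.H48 Fermat.Agent.A2.H129

section Approx

variable {F : Type*} [Field F] {V₁ V₂ : ValuationSubring F} {ϖ : F}

/-- An "idempotent modulo `ϖ^m`" separating two valuation rings with the same uniformiser. -/
theorem exists_idem669 (h₁ : IsUnif V₁ ϖ) (h₂ : IsUnif V₂ ϖ) (hne : V₁ ≠ V₂) (m : ℕ) :
    ∃ e : F, V₁.valuation (e - 1) ≤ V₁.valuation ϖ ^ m ∧
      V₂.valuation e ≤ V₂.valuation ϖ ^ m := by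
  obtain ⟨c, hc0, hc1, hc2⟩ := exists_separating h₁ h₂ hne
  set n := m + 1 with hn
  have hcn1 : V₁.valuation (c ^ n) < 1 := by
    rw [map_pow]; exact pow_lt_one₀ zero_le hc1 (by omega)
  have hcn2 : V₂.valuation ((c⁻¹) ^ n) < 1 := by
    rw [map_pow]; exact pow_lt_one₀ zero_le hc2 (by omega)
  have hu1 : V₁.valuation (1 + c ^ n) = 1 := Valuation.map_one_add_of_lt _ hcn1
  have hu2 : V₂.valuation (1 + (c⁻¹) ^ n) = 1 := Valuation.map_one_add_of_lt _ hcn2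
  have hne1 : 1 + c ^ n ≠ 0 := by
    intro h; rw [h, map_zero] at hu1; exact zero_ne_one hu1
  have hne2 : 1 + (c⁻¹) ^ n ≠ 0 := by
    intro h; rw [h, map_zero] at hu2; exact zero_ne_one hu2
  set e := (1 + c ^ n)⁻¹ with he
  have he1 : V₁.valuation e = 1 := by rw [he, map_inv₀, hu1, inv_one]
  have hee : e - 1 = -(c ^ n) * e := by
    rw [he]; field_simp; ring
  have hee2 : e = (c⁻¹) ^ n * (1 + (c⁻¹) ^ n)⁻¹ := by
    have hcn0 : c ^ n ≠ 0 := pow_ne_zero _ hc0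
    have h3 : 1 + (c ^ n)⁻¹ ≠ 0 := by rwa [inv_pow] at hne2
    rw [he, inv_pow, eq_comm, ← div_eq_mul_inv, div_eq_iff h3, ← div_eq_inv_mul,
      eq_div_iff hne1]
    field_simp
    ring
  have hle1 : V₁.valuation ϖ ≤ 1 := h₁.val_lt_one.le
  have hle2 : V₂.valuation ϖ ≤ 1 := h₂.val_lt_one.le
  refine ⟨e, ?_, ?_⟩
  · rw [hee, map_mul, Valuation.map_neg, he1, mul_one, map_pow]
    calc V₁.valuation c ^ n ≤ V₁.valuation ϖ ^ n :=
          pow_le_pow_left₀ zero_le (h₁.val_le_of_lt_one hc1) n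
      _ ≤ V₁.valuation ϖ ^ m := pow_le_pow_of_le_one zero_le hle1 (by omega)
  · rw [hee2, map_mul, map_inv₀, hu2, inv_one, mul_one, map_pow]
    calc V₂.valuation c⁻¹ ^ n ≤ V₂.valuation ϖ ^ n :=
          pow_le_pow_left₀ zero_le (h₂.val_le_of_lt_one hc2) n
      _ ≤ V₂.valuation ϖ ^ m := pow_le_pow_of_le_one zero_le hle2 (by omega)

/-- auxiliary: `v(x) ≤ v(ϖ)^(k+l+1)`, `ϖ^k z ∈ V` ⟹ `v(x z) < 1`. -/
theorem val_mul_lt_one669 {V : ValuationSubring F} (h : IsUnif V ϖ) {x z : F} {k l : ℕ}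
    (hx : V.valuation x ≤ V.valuation ϖ ^ (k + l + 1)) (hz : ϖ ^ k * z ∈ V) :
    V.valuation (x * z) < 1 := by
  have hk : V.valuation ϖ ^ k * V.valuation z ≤ 1 := by
    have := (V.valuation_le_one_iff _).2 hz
    rwa [map_mul, map_pow] at this
  have hl : V.valuation ϖ ^ (l + 1) < 1 := pow_lt_one₀ zero_le h.val_lt_one (by omega)
  rw [map_mul]
  calc V.valuation x * V.valuation z
      ≤ V.valuation ϖ ^ (k + l + 1) * V.valuation z := mul_le_mul_left hx _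
    _ = V.valuation ϖ ^ (l + 1) * (V.valuation ϖ ^ k * V.valuation z) := by
        rw [show k + l + 1 = (l + 1) + k by omega, pow_add, mul_assoc]
    _ ≤ V.valuation ϖ ^ (l + 1) * 1 := mul_le_mul_right hk _
    _ < 1 := by rw [mul_one]; exact hl

/-- **Weak approximation, multiplicative form.** -/
theorem exists_approx669 (h₁ : IsUnif V₁ ϖ) (h₂ : IsUnif V₂ ϖ) (hne : V₁ ≠ V₂)
    (arch₁ : ∀ a : F, ∃ k : ℕ, ϖ ^ k * a ∈ V₁) (arch₂ : ∀ a : F, ∃ k : ℕ, ϖ ^ k * a ∈ V₂)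
    (a₁ a₂ : F) (ha₁ : a₁ ≠ 0) (ha₂ : a₂ ≠ 0) :
    ∃ a : F, a ≠ 0 ∧ OneAddNonunits V₁ (a * a₁⁻¹) ∧ OneAddNonunits V₂ (a * a₂⁻¹) := by
  obtain ⟨k₁, hk₁⟩ := arch₁ (1 - a₂ * a₁⁻¹)
  obtain ⟨k₂, hk₂⟩ := arch₂ (a₁ * a₂⁻¹ - 1)
  obtain ⟨e, he₁, he₂⟩ := exists_idem669 h₁ h₂ hne (k₁ + k₂ + 1)
  set a := a₁ * e + a₂ * (1 - e) with ha
  have e1 : a * a₁⁻¹ - 1 = (e - 1) * (1 - a₂ * a₁⁻¹) := by
    rw [ha]; field_simp; ring
  have e2 : a * a₂⁻¹ - 1 = e * (a₁ * a₂⁻¹ - 1) := by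
    rw [ha]; field_simp; ring
  have hv1 : V₁.valuation (a * a₁⁻¹ - 1) < 1 := by
    rw [e1]
    exact val_mul_lt_one669 h₁ he₁ hk₁
  have hv2 : V₂.valuation (a * a₂⁻¹ - 1) < 1 := by
    rw [e2]
    have he₂' : V₂.valuation e ≤ V₂.valuation ϖ ^ (k₂ + k₁ + 1) := by
      rw [show k₂ + k₁ + 1 = k₁ + k₂ + 1 by omega]; exact he₂
    exact val_mul_lt_one669 h₂ he₂' hk₂
  refine ⟨a, ?_, hv1, hv2⟩
  intro h0
  rw [h0, zero_mul, zero_sub, Valuation.map_neg, map_one] at hv1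
  exact lt_irrefl _ hv1

theorem oneAdd_pow669 {V : ValuationSubring F} {u : F} (h : OneAddNonunits V u) (n : ℕ) :
    OneAddNonunits V (u ^ n) := by
  induction n with
  | zero => rw [pow_zero]; exact OneAddNonunits.one
  | succ n ih => rw [pow_succ]; exact ih.mul h

/-- **Normalisation.**  If `f ∈ a₁^p (1 + 𝔪₁)` and `f ∈ a₂^p (1 + 𝔪₂)` there is ONE `a` with
`f / a^p ∈ (1 + 𝔪₁) ∩ (1 + 𝔪₂)`. -/
theorem exists_normalise669 (h₁ : IsUnif V₁ ϖ) (h₂ : IsUnif V₂ ϖ) (hne : V₁ ≠ V₂)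
    (arch₁ : ∀ a : F, ∃ k : ℕ, ϖ ^ k * a ∈ V₁) (arch₂ : ∀ a : F, ∃ k : ℕ, ϖ ^ k * a ∈ V₂)
    (p : ℕ) (f a₁ a₂ : F) (ha₁ : a₁ ≠ 0) (ha₂ : a₂ ≠ 0)
    (hf₁ : OneAddNonunits V₁ (f * (a₁ ^ p)⁻¹)) (hf₂ : OneAddNonunits V₂ (f * (a₂ ^ p)⁻¹)) :
    ∃ a : F, a ≠ 0 ∧ OneAddNonunits V₁ (f * (a ^ p)⁻¹) ∧ OneAddNonunits V₂ (f * (a ^ p)⁻¹) := by
  obtain ⟨a, ha0, hv1, hv2⟩ := exists_approx669 h₁ h₂ hne arch₁ arch₂ a₁ a₂ ha₁ ha₂
  refine ⟨a, ha0, ?_, ?_⟩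
  · have e : f * (a ^ p)⁻¹ = f * (a₁ ^ p)⁻¹ * ((a * a₁⁻¹) ^ p)⁻¹ := by
      have h1 : a₁ ^ p ≠ 0 := pow_ne_zero p ha₁
      rw [mul_pow, inv_pow a₁, mul_inv, inv_inv, mul_assoc f, ← mul_assoc (a₁ ^ p)⁻¹,
        mul_comm (a₁ ^ p)⁻¹, mul_assoc (a ^ p)⁻¹, inv_mul_cancel₀ h1, mul_one]
    rw [e]
    exact hf₁.mul (oneAdd_pow669 hv1 p).inv
  · have e : f * (a ^ p)⁻¹ = f * (a₂ ^ p)⁻¹ * ((a * a₂⁻¹) ^ p)⁻¹ := by
      have h1 : a₂ ^ p ≠ 0 := pow_ne_zero p ha₂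
      rw [mul_pow, inv_pow a₂, mul_inv, inv_inv, mul_assoc f, ← mul_assoc (a₂ ^ p)⁻¹,
        mul_comm (a₂ ^ p)⁻¹, mul_assoc (a ^ p)⁻¹, inv_mul_cancel₀ h1, mul_one]
    rw [e]
    exact hf₂.mul (oneAdd_pow669 hv2 p).inv

end Approx

section Frac

variable {R F : Type*} [CommRing R] [Field F] [Algebra R F]

/-- **`V = B_𝔭`.**  `B ⊆ V` a subalgebra with fraction field `F`, `𝔭 = B ∩ ϖ V` (`ϖ` the image of
`w ∈ R`, a uniformiser of the rank one valuation ring `V`), `𝔭 ⊓ 𝔭' = (w)`, `𝔭' ⊄ 𝔭`.  Then every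
element of `V` is a fraction `a / b` with `a, b ∈ B`, `b ∉ 𝔭`. -/
theorem exists_frac669 (B : Subalgebra R F) (V : ValuationSubring F) (w : R)
    (hU : IsUnif V (algebraMap R F w))
    (arch : ∀ a : F, ∃ k : ℕ, (algebraMap R F w) ^ k * a ∈ V)
    (hBV : ∀ b ∈ B, b ∈ V) (p p' : Ideal B)
    (hcut : ∀ b : B, b ∈ p ↔ (b : F) * (algebraMap R F w)⁻¹ ∈ V)
    (hinf : p ⊓ p' = Ideal.span {algebraMap R B w}) (hnle : ¬ p' ≤ p)
    (hfrac : ∀ f : F, ∃ a b : B, b ≠ 0 ∧ f * (b : F) = (a : F)) :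
    ∀ f ∈ V, ∃ a b : B, b ∉ p ∧ f * (b : F) = (a : F) := by
  obtain ⟨t, htp', htp⟩ := SetLike.not_le_iff_exists.1 hnle
  have ht0 : (t : F) ≠ 0 := by
    intro h
    apply htp
    have : t = 0 := Subtype.ext h
    rw [this]
    exact p.zero_mem
  have htV : (t : F) ∈ V := hBV t t.2
  have htinv : (t : F)⁻¹ ∈ V := by
    by_contra hcon
    exact htp ((hcut t).2 (hU.gen _ htV hcon))
  have hϖ0 : algebraMap R F w ≠ 0 := hU.ne_zero
  have key : ∀ k : ℕ, ∀ f : F, ∀ a b : B, b ≠ 0 → f * (b : F) = (a : F) → f ∈ V →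
      (algebraMap R F w) ^ k * (b : F)⁻¹ ∈ V →
      ∃ a' b' : B, b' ∉ p ∧ f * (b' : F) = (a' : F) := by
    intro k
    induction k with
    | zero =>
      intro f a b hb hfb _ hk
      refine ⟨a, b, ?_, hfb⟩
      intro hbp
      have h1 := (hcut b).1 hbp
      rw [pow_zero, one_mul] at hk
      have hbF0 : (b : F) ≠ 0 := fun h => hb (Subtype.ext h)
      apply hU.inv_not_mem
      have e : (algebraMap R F w)⁻¹ = (b : F)⁻¹ * ((b : F) * (algebraMap R F w)⁻¹) := by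
        field_simp
      rw [e]
      exact V.mul_mem _ _ hk h1
    | succ k ih =>
      intro f a b hb hfb hf hk
      by_cases hbp : b ∈ p
      · have hbF0 : (b : F) ≠ 0 := fun h => hb (Subtype.ext h)
        have hap : a ∈ p := by
          rw [hcut, ← hfb, mul_assoc]
          exact V.mul_mem _ _ hf ((hcut b).1 hbp)
        have h1 : t * b ∈ p ⊓ p' := ⟨p.mul_mem_left t hbp, p'.mul_mem_right b htp'⟩
        have h2 : t * a ∈ p ⊓ p' := ⟨p.mul_mem_left t hap, p'.mul_mem_right a htp'⟩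
        rw [hinf, Ideal.mem_span_singleton'] at h1 h2
        obtain ⟨b', hb'⟩ := h1
        obtain ⟨a', ha'⟩ := h2
        have hb'F : (b' : F) * algebraMap R F w = (t : F) * (b : F) :=
          congrArg (fun z : B => (z : F)) hb'
        have ha'F : (a' : F) * algebraMap R F w = (t : F) * (a : F) :=
          congrArg (fun z : B => (z : F)) ha'
        have hb'0 : b' ≠ 0 := by
          rintro rfl
          have h0 : (0 : F) * algebraMap R F w = (t : F) * (b : F) := hb'F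
          rw [zero_mul] at h0
          exact mul_ne_zero ht0 hbF0 h0.symm
        refine ih f a' b' hb'0 ?_ hf ?_
        · apply mul_right_cancel₀ hϖ0
          rw [mul_assoc, hb'F, ha'F, ← hfb]
          ring
        · have hb'eq : (b' : F) = (t : F) * (b : F) * (algebraMap R F w)⁻¹ := by
            rw [← hb'F, mul_assoc, mul_inv_cancel₀ hϖ0, mul_one]
          have e : (algebraMap R F w) ^ k * (b' : F)⁻¹ =
              ((algebraMap R F w) ^ (k + 1) * (b : F)⁻¹) * (t : F)⁻¹ := by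
            rw [hb'eq, pow_succ]
            field_simp
          rw [e]
          exact V.mul_mem _ _ hk htinv
      · exact ⟨a, b, hbp, hfb⟩
  intro f hf
  obtain ⟨a, b, hb, hfb⟩ := hfrac f
  obtain ⟨k, hk⟩ := arch (b : F)⁻¹
  exact key k f a b hb hfb hf hk

/-- **`1 + 𝔪_V ⊆ ` constant residue `1` on the component cut out by `V`.** -/
theorem constAt_of_oneAdd669 (B : Subalgebra R F) (V : ValuationSubring F) (w : R)
    (hU : IsUnif V (algebraMap R F w)) (hBV : ∀ b ∈ B, b ∈ V) (p : Ideal B)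
    (hcut : ∀ b : B, b ∈ p ↔ (b : F) * (algebraMap R F w)⁻¹ ∈ V)
    (hfracV : ∀ f ∈ V, ∃ a b : B, b ∉ p ∧ f * (b : F) = (a : F))
    (u : F) (hu : OneAddNonunits V u) : ConstAt B p u := by
  have hu' : V.valuation (u - 1) < 1 := hu
  have huV : u ∈ V := by
    have e : u = (u - 1) + 1 := by ring
    rw [e]
    exact V.add_mem _ _ ((V.valuation_le_one_iff _).1 hu'.le) V.one_mem
  obtain ⟨a, b, hb, hab⟩ := hfracV u huV
  refine ⟨1, isUnit_one, a, b, hb, ?_, hab⟩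
  rw [map_one, one_mul, hcut]
  have e : ((a - b : B) : F) * (algebraMap R F w)⁻¹ =
      ((u - 1) * (algebraMap R F w)⁻¹) * (b : F) := by
    push_cast
    rw [← hab]
    ring
  rw [e]
  exact V.mul_mem _ _ (hU.mul_inv_mem_iff.2 hu') (hBV b b.2)

end Frac

end Fermat.Agent.Ribet.H669.Dict
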